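import Mathlib
import Fermat.Agent.GR.H.Iface

/-!
# GR-I (integration), file 1: from honest actions on the finite levels to `H.TateData`

`LevelData N p` records a lattice `Λ` with Hecke action and involution (GR-B), groups `X k`
receiving `Λ` with kernel `p^k Λ`, and an action of `G_ℚ` on the image of `Λ` in `X k`
(plain functions, only their values on the image of `Λ` matter).  We choose `ℤ`-linear lifts.
-/

set_option autoImplicit false

namespace Fermat.Agent.GR.I

open Fermat.Agent.GR.H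

/-- Honest Galois actions on the finite levels. -/
structure LevelData (N : ℕ) [NeZero N] (p : ℕ) : Type 1 where
  Λ : Type
  [instAddCommGroup : AddCommGroup Λ]
  [instFree : Module.Free ℤ Λ]
  [instFinite : Module.Finite ℤ Λ]
  hecke : HeckeFull N →+* Module.End ℤ Λ
  conj : Module.End ℤ Λ
  conj_mul_conj : conj * conj = 1
  conj_comm : ∀ t, conj * hecke t = hecke t * conj
  eigen_dim : ∀ (μ : HeckeFull N →+* ℂ) (s : ℤˣ),
    Module.finrank ℂ (eigenSubSign hecke conj ℂ μ s) = 1
  X : ℕ → Type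
  [instX : ∀ k, AddCommGroup (X k)]
  red : ∀ k, Λ →+ X k
  red_eq_zero_iff : ∀ k x, red k x = 0 ↔ ∃ y, x = ((p ^ k : ℕ) : ℤ) • y
  tr : ∀ k, X (k + 1) →+ X k
  tr_red : ∀ k x, tr k (red (k + 1) x) = red k x
  act : ∀ k, GQ → X k → X k
  act_red : ∀ k σ x, ∃ y, red k y = act k σ (red k x)
  act_add : ∀ k σ x y, act k σ (red k (x + y)) = act k σ (red k x) + act k σ (red k y)
  act_one : ∀ k x, act k 1 (red k x) = red k x
  act_mul : ∀ k σ τ x, act k (σ * τ) (red k x) = act k σ (act k τ (red k x))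
  act_tr : ∀ k σ x, tr k (act (k + 1) σ (red (k + 1) x)) = act k σ (red k x)
  act_hecke : ∀ t : HeckeFull N,
    (t : Module.End ℂ (CuspForm (CongruenceSubgroup.Gamma0 N) 2)) ∈
      CuspForm.heckeGenerators N 2 (∅ : Set ℕ) →
    ∀ k σ x y, red k y = act k σ (red k x) → red k (hecke t y) = act k σ (red k (hecke t x))
  act_level : ∀ k, ∃ L : IntermediateField ℚ (AlgebraicClosure ℚ), FiniteDimensional ℚ L ∧
    ∀ σ : GQ, (∀ x ∈ L, σ x = x) → ∀ x, act k σ (red k x) = red k x
  act_conj : ∃ c : GQ, ∀ k x, act k c (red k x) = red k (conj x)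
  act_unram : ∀ q : ℕ, q.Prime → ¬ q ∣ N → q ≠ p →
    ∀ A : ValuationSubring (AlgebraicClosure ℚ), A.LiesOverPrime q →
      ∀ σ ∈ A.inertiaSubgroupIn ℚ, ∀ k x, act k σ (red k x) = red k x
  act_frob : ∀ (ℓ : ℕ) (hℓ : ℓ.Prime) (hℓN : ¬ ℓ ∣ N), ℓ ≠ p →
    ∀ A : ValuationSubring (AlgebraicClosure ℚ), A.LiesOverPrime ℓ →
      ∀ σ : GQ, A.IsFrobeniusAt σ ℓ → ∀ k x y, red k y = act k σ (red k x) →
        act k σ (red k y) - red k (hecke (HeckeFull.T hℓ hℓN) y) + (ℓ : ℤ) • red k x = 0

attribute [instance] LevelData.instAddCommGroup LevelData.instFree LevelData.instFinite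
  LevelData.instX

namespace LevelData

variable {N : ℕ} [NeZero N] {p : ℕ} (D : LevelData N p)

/-- `x ↦ σ (red x)` as an additive map. -/
noncomputable def actHom (k : ℕ) (σ : GQ) : D.Λ →+ D.X k :=
  AddMonoidHom.mk' (fun x => D.act k σ (D.red k x)) (D.act_add k σ)

@[simp] theorem actHom_apply (k : ℕ) (σ : GQ) (x : D.Λ) :
    D.actHom k σ x = D.act k σ (D.red k x) := rfl

theorem exists_lift (k : ℕ) (σ : GQ) :
    ∃ G : Module.End ℤ D.Λ, ∀ x, D.red k (G x) = D.act k σ (D.red k x) := by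
  classical
  let b := Module.Free.chooseBasis ℤ D.Λ
  choose y hy using fun i => D.act_red k σ (b i)
  refine ⟨b.constr ℤ y, fun x => ?_⟩
  have h : ((D.red k).toIntLinearMap ∘ₗ (b.constr ℤ y)) = (D.actHom k σ).toIntLinearMap := by
    refine b.ext fun i => ?_
    simp [hy i]
  exact congrArg (fun f : D.Λ →ₗ[ℤ] D.X k => f x) h

/-- A `ℤ`-linear lift of the action of `σ` on level `k`. -/
noncomputable def gal (k : ℕ) (σ : GQ) : Module.End ℤ D.Λ := (D.exists_lift k σ).choose

theorem red_gal (k : ℕ) (σ : GQ) (x : D.Λ) :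
    D.red k (D.gal k σ x) = D.act k σ (D.red k x) := (D.exists_lift k σ).choose_spec x

theorem endCong_of_red (k : ℕ) (f g : Module.End ℤ D.Λ)
    (h : ∀ x, D.red k (f x) = D.red k (g x)) : EndCong (p ^ k) f g := by
  classical
  let b := Module.Free.chooseBasis ℤ D.Λ
  have h1 : ∀ i, ∃ y, (f - g) (b i) = ((p ^ k : ℕ) : ℤ) • y := by
    intro i
    apply (D.red_eq_zero_iff k _).mp
    rw [LinearMap.sub_apply, map_sub, h, sub_self]
  choose y hy using h1
  refine ⟨b.constr ℤ y, b.ext fun i => ?_⟩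
  rw [hy i, LinearMap.smul_apply, Module.Basis.constr_basis]

theorem red_congr (k : ℕ) (f : Module.End ℤ D.Λ) {a b : D.Λ} (h : D.red k a = D.red k b) :
    D.red k (f a) = D.red k (f b) := by
  have h1 : D.red k (a - b) = 0 := by rw [map_sub, h, sub_self]
  obtain ⟨y, hy⟩ := (D.red_eq_zero_iff k _).mp h1
  have h2 : D.red k (f (a - b)) = 0 := by
    rw [hy, map_smul]
    exact (D.red_eq_zero_iff k _).mpr ⟨_, rfl⟩
  rw [map_sub, map_sub, sub_eq_zero] at h2
  exact h2

theorem red_gal_hecke (k : ℕ) (σ : GQ) (t : HeckeFull N) (x : D.Λ) :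
    D.red k (D.gal k σ (D.hecke t x)) = D.red k (D.hecke t (D.gal k σ x)) := by
  obtain ⟨t, ht⟩ := t
  revert x
  induction ht using Algebra.adjoin_induction with
  | mem t ht =>
    intro x
    rw [red_gal]
    exact (D.act_hecke ⟨t, Algebra.subset_adjoin ht⟩ ht k σ x _ (D.red_gal k σ x)).symm
  | algebraMap r =>
    intro x
    have h : (⟨algebraMap ℤ _ r, Subalgebra.algebraMap_mem _ r⟩ : HeckeFull N) =
        algebraMap ℤ (HeckeFull N) r := rfl
    rw [h]
    simp only [eq_intCast, map_intCast]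
    simp [Module.End.intCast_apply]
  | add s t hs ht ihs iht =>
    intro x
    have h : (⟨s + t, add_mem hs ht⟩ : HeckeFull N) = ⟨s, hs⟩ + ⟨t, ht⟩ := rfl
    rw [h, map_add, LinearMap.add_apply, LinearMap.add_apply, map_add, map_add, map_add, ihs, iht]
  | mul s t hs ht ihs iht =>
    intro x
    have h : (⟨s * t, mul_mem hs ht⟩ : HeckeFull N) = ⟨s, hs⟩ * ⟨t, ht⟩ := rfl
    rw [h, map_mul, Module.End.mul_apply, Module.End.mul_apply, ihs]
    exact D.red_congr k _ (iht x)

/-- The interface of GR-H. -/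
noncomputable def toTateData : TateData N p where
  Λ := D.Λ
  hecke := D.hecke
  conj := D.conj
  conj_mul_conj := D.conj_mul_conj
  conj_comm := D.conj_comm
  eigen_dim := D.eigen_dim
  gal := D.gal
  gal_one := fun k => D.endCong_of_red k _ _ fun x => by
    rw [red_gal, D.act_one, Module.End.one_apply]
  gal_mul := fun k σ τ => D.endCong_of_red k _ _ fun x => by
    rw [red_gal, D.act_mul, Module.End.mul_apply, red_gal, red_gal]
  gal_succ := fun k σ => D.endCong_of_red k _ _ fun x => by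
    rw [← D.tr_red, red_gal, D.act_tr, red_gal]
  gal_hecke := fun k σ t => D.endCong_of_red k _ _ fun x => by
    rw [Module.End.mul_apply, Module.End.mul_apply, red_gal_hecke]
  gal_level := fun k => by
    obtain ⟨L, hL, h⟩ := D.act_level k
    exact ⟨L, hL, fun σ hσ => D.endCong_of_red k _ _ fun x => by
      rw [red_gal, h σ hσ, Module.End.one_apply]⟩
  gal_conj := by
    obtain ⟨c, hc⟩ := D.act_conj
    exact ⟨c, fun k => D.endCong_of_red k _ _ fun x => by rw [red_gal, hc]⟩
  gal_unram := fun q hq hqN hqp A hA σ hσ k => D.endCong_of_red k _ _ fun x => by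
    rw [red_gal, D.act_unram q hq hqN hqp A hA σ hσ, Module.End.one_apply]
  gal_frob := fun ℓ hℓ hℓN hℓp A hA σ hσ k => D.endCong_of_red k _ _ fun x => by
    have h := D.act_frob ℓ hℓ hℓN hℓp A hA σ hσ k x _ (D.red_gal k σ x)
    rw [LinearMap.add_apply, LinearMap.sub_apply, Module.End.mul_apply, Module.End.mul_apply,
      LinearMap.smul_apply, Module.End.one_apply, map_add, map_sub, map_zsmul, red_gal, h,
      LinearMap.zero_apply, map_zero]

end LevelData

end Fermat.Agent.GR.I
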