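import Fermat.Agent.GR.I.Iface
import Fermat.Agent.GR.I.Abstract
import Fermat.Agent.GR.C.Basic

/-!
# GR-I (integration), file 3: `KummerData N` + `CruxAll N` give `LevelData N p`
-/

set_option autoImplicit false

namespace Fermat.Agent.GR.I

open Fermat.Agent.GR Fermat.Agent.GR.H ModularCurve

variable {N : ℕ}

/-! ### generalities on `gal` -/

theorem gal_one_apply (u : LaurentSeries Qbar) : gal (1 : GQ) u = u := by
  ext k
  rfl

theorem gal_mul_apply (σ τ : GQ) (u : LaurentSeries Qbar) :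
    gal (σ * τ) u = gal σ (gal τ u) := by
  ext k
  rfl

theorem gal_inv_gal (σ : GQ) (u : LaurentSeries Qbar) : gal σ⁻¹ (gal σ u) = u := by
  rw [← gal_mul_apply, inv_mul_cancel, gal_one_apply]

theorem galStable (n : ℕ) : GalStable N n := by
  intro σ u hu
  exact C.isKummer_coeffMap_ringEquiv hu σ.toRingEquiv

theorem kummerEquiv_gal {n : ℕ} (σ : GQ) {u v : LaurentSeries Qbar} (h : KummerEquiv N n u v) :
    KummerEquiv N n (gal σ u) (gal σ v) :=
  C.kummerEquiv_coeffMap h _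

theorem isKummer_of_dvd {n m : ℕ} (h : n ∣ m) {u : LaurentSeries Qbar}
    (hu : IsKummer (N := N) m u) : IsKummer (N := N) n u := by
  obtain ⟨h0, hmem, hord⟩ := hu
  exact ⟨h0, hmem, fun v => dvd_trans (Int.natCast_dvd_natCast.mpr h) (hord v)⟩

/-- Every element of the function field is defined over a number field. -/
theorem exists_level_of_mem_FF {u : LaurentSeries Qbar} (hu : u ∈ FF Qbar N) :
    ∃ L : IntermediateField ℚ Qbar, FiniteDimensional ℚ L ∧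
      ∀ σ : GQ, (∀ x ∈ L, σ x = x) → gal σ u = u := by
  induction hu using IntermediateField.adjoin_induction with
  | mem x hx =>
    obtain ⟨d, hd, hdN, rfl⟩ := hx
    refine ⟨⊥, inferInstance, fun σ _ => ?_⟩
    show coeffMap _ _ = _
    rw [coeffMap_qExpand, coeffMap_jqModC]
  | algebraMap a =>
    refine ⟨IntermediateField.adjoin ℚ {a}, ?_, fun σ hσ => ?_⟩
    · exact IntermediateField.adjoin.finiteDimensional
        (Algebra.IsIntegral.isIntegral a)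
    · show coeffMap _ _ = _
      rw [C.coeffMap_algebraMap']
      congr 1
      exact hσ a (IntermediateField.mem_adjoin_simple_self ℚ a)
  | add x y _ _ hx hy =>
    obtain ⟨L₁, h₁, k₁⟩ := hx
    obtain ⟨L₂, h₂, k₂⟩ := hy
    refine ⟨L₁ ⊔ L₂, IntermediateField.finiteDimensional_sup L₁ L₂, fun σ hσ => ?_⟩
    rw [map_add, k₁ σ fun x hx => hσ x ((le_sup_left : L₁ ≤ L₁ ⊔ L₂) hx),
      k₂ σ fun x hx => hσ x ((le_sup_right : L₂ ≤ L₁ ⊔ L₂) hx)]
  | inv x _ hx =>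
    obtain ⟨L₁, h₁, k₁⟩ := hx
    exact ⟨L₁, h₁, fun σ hσ => by rw [map_inv₀, k₁ σ hσ]⟩
  | mul x y _ _ hx hy =>
    obtain ⟨L₁, h₁, k₁⟩ := hx
    obtain ⟨L₂, h₂, k₂⟩ := hy
    refine ⟨L₁ ⊔ L₂, IntermediateField.finiteDimensional_sup L₁ L₂, fun σ hσ => ?_⟩
    rw [map_mul, k₁ σ fun x hx => hσ x ((le_sup_left : L₁ ≤ L₁ ⊔ L₂) hx),
      k₂ σ fun x hx => hσ x ((le_sup_right : L₂ ≤ L₁ ⊔ L₂) hx)]

/-! ### the Galois action on the finite levels -/

namespace KummerData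

variable [NeZero N] (D : KummerData N)

open Classical in
/-- The action of `σ` on classes of Kummer functions, transported to `X n`. -/
noncomputable def act (n : ℕ) (σ : GQ) (ψ : D.X n) : D.X n :=
  if h : ∃ u, IsKummer (N := N) n u ∧ D.theta n u = ψ then D.theta n (gal σ h.choose) else 0

theorem act_theta {n : ℕ} (hn : 0 < n) (σ : GQ) {u : LaurentSeries Qbar}
    (hu : IsKummer (N := N) n u) : D.act n σ (D.theta n u) = D.theta n (gal σ u) := by
  have h : ∃ v, IsKummer (N := N) n v ∧ D.theta n v = D.theta n u := ⟨u, hu, rfl⟩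
  rw [act, dif_pos h]
  obtain ⟨h1, h2⟩ := h.choose_spec
  rw [D.theta_eq_iff n hn _ _ (galStable n σ _ h1) (galStable n σ _ hu)]
  exact kummerEquiv_gal σ ((D.theta_eq_iff n hn _ _ h1 hu).mp h2)

theorem act_red {n : ℕ} (hn : 0 < n) (σ : GQ) (x : D.Λ) :
    ∃ y, D.red n y = D.act n σ (D.red n x) := by
  obtain ⟨u, hu, hux⟩ := D.theta_surj n hn x
  rw [← hux, D.act_theta hn σ hu]
  exact D.theta_mem n hn _ (galStable n σ _ hu)

theorem act_add {n : ℕ} (hn : 0 < n) (σ : GQ) (x y : D.Λ) :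
    D.act n σ (D.red n (x + y)) = D.act n σ (D.red n x) + D.act n σ (D.red n y) := by
  obtain ⟨u, hu, hux⟩ := D.theta_surj n hn x
  obtain ⟨v, hv, hvy⟩ := D.theta_surj n hn y
  rw [map_add, ← hux, ← hvy, ← D.theta_mul n hn u v hu hv, D.act_theta hn σ (hu.mul hv),
    D.act_theta hn σ hu, D.act_theta hn σ hv, map_mul,
    D.theta_mul n hn _ _ (galStable n σ _ hu) (galStable n σ _ hv)]

theorem act_one {n : ℕ} (hn : 0 < n) (x : D.Λ) : D.act n 1 (D.red n x) = D.red n x := by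
  obtain ⟨u, hu, hux⟩ := D.theta_surj n hn x
  rw [← hux, D.act_theta hn 1 hu, gal_one_apply]

theorem act_mul {n : ℕ} (hn : 0 < n) (σ τ : GQ) (x : D.Λ) :
    D.act n (σ * τ) (D.red n x) = D.act n σ (D.act n τ (D.red n x)) := by
  obtain ⟨u, hu, hux⟩ := D.theta_surj n hn x
  rw [← hux, D.act_theta hn _ hu, D.act_theta hn τ hu, D.act_theta hn σ (galStable n τ _ hu),
    gal_mul_apply]

theorem act_cast {n m : ℕ} (h : n ∣ m) (hm : 0 < m) (σ : GQ) (x : D.Λ) :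
    D.cast h (D.act m σ (D.red m x)) = D.act n σ (D.red n x) := by
  have hn : 0 < n := Nat.pos_of_dvd_of_pos h hm
  obtain ⟨u, hu, hux⟩ := D.theta_surj m hm x
  have h1 : D.theta n u = D.red n x := by
    rw [← D.theta_cast h hm u hu, hux, D.cast_red]
  rw [← hux, D.act_theta hm σ hu, D.theta_cast h hm _ (galStable m σ _ hu), ← h1,
    D.act_theta hn σ (isKummer_of_dvd h hu)]

theorem exists_primitiveRoot (ℓ : ℕ) [NeZero ℓ] : ∃ ζ : Qbarˣ, IsPrimitiveRoot ζ ℓ := by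
  obtain ⟨ζ, hζ⟩ := HasEnoughRootsOfUnity.exists_primitiveRoot Qbar ℓ
  exact ⟨hζ.isUnit (NeZero.ne ℓ) |>.unit, IsPrimitiveRoot.coe_units_iff.mp (by simpa using hζ)⟩

theorem isPrimitiveRoot_map (σ : GQ) {ℓ : ℕ} {ζ : Qbarˣ} (hζ : IsPrimitiveRoot ζ ℓ) :
    IsPrimitiveRoot (Units.map ((σ : Qbar →+* Qbar) : Qbar →* Qbar) ζ) ℓ := by
  rw [← IsPrimitiveRoot.coe_units_iff] at hζ ⊢
  exact hζ.map_of_injective (f := (σ : Qbar →+* Qbar)) (RingHom.injective _)

theorem act_heckeT {n : ℕ} (hn : 0 < n) {ℓ : ℕ} (hℓ : ℓ.Prime) (hℓN : ¬ ℓ ∣ N) (σ : GQ)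
    (x y : D.Λ) (hy : D.red n y = D.act n σ (D.red n x)) :
    D.red n (D.hecke (HeckeFull.T hℓ hℓN) y) =
      D.act n σ (D.red n (D.hecke (HeckeFull.T hℓ hℓN) x)) := by
  have : NeZero ℓ := ⟨hℓ.ne_zero⟩
  obtain ⟨ζ, hζ⟩ := exists_primitiveRoot ℓ
  obtain ⟨u, hu, hux⟩ := D.theta_surj n hn x
  rw [← hux, D.act_theta hn σ hu] at hy
  rw [← D.theta_heckeT n hn ℓ hℓ hℓN ζ hζ u x hu hux,
    D.act_theta hn σ ((D.heckeStable n ℓ ζ hℓ hℓN hζ).2 u hu)]
  have h1 : gal σ (heckeMulT ℓ ζ u) =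
      heckeMulT ℓ (Units.map ((σ : Qbar →+* Qbar) : Qbar →* Qbar) ζ) (gal σ u) :=
    coeffMap_heckeMulT _ ℓ ζ u
  rw [h1]
  exact (D.theta_heckeT n hn ℓ hℓ hℓN _ (isPrimitiveRoot_map σ hζ) _ y
    (galStable n σ _ hu) hy.symm).symm

theorem act_heckeU {n : ℕ} (hn : 0 < n) {q : ℕ} (hq : q.Prime) (hqN : q ∣ N) (σ : GQ)
    (x y : D.Λ) (hy : D.red n y = D.act n σ (D.red n x)) :
    D.red n (D.hecke (CuspForm.heckeAlgebra.U hq hqN (Set.notMem_empty q)) y) =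
      D.act n σ (D.red n (D.hecke (CuspForm.heckeAlgebra.U hq hqN (Set.notMem_empty q)) x)) := by
  have : NeZero q := ⟨hq.ne_zero⟩
  obtain ⟨ζ, hζ⟩ := exists_primitiveRoot q
  obtain ⟨u, hu, hux⟩ := D.theta_surj n hn x
  rw [← hux, D.act_theta hn σ hu] at hy
  rw [← D.theta_heckeU n hn q hq hqN ζ hζ u x hu hux,
    D.act_theta hn σ (D.normStable n q ζ hq hqN hζ u hu)]
  have h1 : gal σ (normT q ζ u) =
      normT q (Units.map ((σ : Qbar →+* Qbar) : Qbar →* Qbar) ζ) (gal σ u) :=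
    coeffMap_normT _ q ζ u
  rw [h1]
  exact (D.theta_heckeU n hn q hq hqN _ (isPrimitiveRoot_map σ hζ) _ y
    (galStable n σ _ hu) hy.symm).symm

theorem act_level {n : ℕ} (hn : 0 < n) :
    ∃ L : IntermediateField ℚ Qbar, FiniteDimensional ℚ L ∧
      ∀ σ : GQ, (∀ x ∈ L, σ x = x) → ∀ x, D.act n σ (D.red n x) = D.red n x := by
  classical
  let b := Module.Free.chooseBasis ℤ D.Λ
  choose u hu hux using fun i => D.theta_surj n hn (b i)
  choose L hL hLσ using fun i => exists_level_of_mem_FF (hu i).mem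
  refine ⟨⨆ i, L i, IntermediateField.finiteDimensional_iSup_of_finite, fun σ hσ x => ?_⟩
  have h : (AddMonoidHom.mk' (fun x => D.act n σ (D.red n x)) (D.act_add hn σ)).toIntLinearMap =
      (D.red n).toIntLinearMap := by
    refine b.ext fun i => ?_
    show D.act n σ (D.red n (b i)) = D.red n (b i)
    rw [← hux i, D.act_theta hn σ (hu i),
      hLσ i σ fun x hx => hσ x ((le_iSup L i : L i ≤ ⨆ i, L i) hx)]
  exact congrArg (fun f : D.Λ →ₗ[ℤ] D.X n => f x) h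

theorem act_conj : ∃ c : GQ, ∀ n, 0 < n → ∀ x, D.act n c (D.red n x) = D.red n (D.conj x) := by
  obtain ⟨c, hc⟩ := D.theta_conj
  refine ⟨c, fun n hn x => ?_⟩
  obtain ⟨u, hu, hux⟩ := D.theta_surj n hn x
  rw [← hux, D.act_theta hn c hu]
  exact hc n hn u x hu hux

theorem act_unram (hcrux : CruxAll N) {n : ℕ} (hn : 0 < n) {q : ℕ} (hq : q.Prime)
    (hqn : ¬ q ∣ n * N) (A : ValuationSubring Qbar) (hA : A.LiesOverPrime q) (σ : GQ)
    (hσ : σ ∈ A.inertiaSubgroupIn ℚ) (x : D.Λ) : D.act n σ (D.red n x) = D.red n x := by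
  obtain ⟨u, hu, hux⟩ := D.theta_surj n hn x
  rw [← hux, D.act_theta hn σ hu]
  exact ((D.theta_eq_iff n hn _ _ hu (galStable n σ _ hu)).mpr
    (kummerEquiv_gal_of_mem_inertia A hn (hcrux n q hq hqn A hA) (galStable n) hσ hu)).symm

theorem theta_pow {n : ℕ} (hn : 0 < n) {u : LaurentSeries Qbar} (hu : IsKummer (N := N) n u)
    (e : ℕ) : D.theta n (u ^ (e + 1)) = (e + 1) • D.theta n u := by
  induction e with
  | zero => simp
  | succ e ih =>
    rw [pow_succ, D.theta_mul n hn _ _ (hu.pow _) hu, ih, succ_nsmul (D.theta n u) (e + 1)]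

theorem act_frob (hcrux : CruxAll N) {n : ℕ} (hn : 0 < n) {ℓ : ℕ} (hℓ : ℓ.Prime)
    (hℓN : ¬ ℓ ∣ N) (hℓn : ¬ ℓ ∣ n * N) (A : ValuationSubring Qbar) (hA : A.LiesOverPrime ℓ)
    (σ : GQ) (hσ : A.IsFrobeniusAt σ ℓ) (x y : D.Λ) (hy : D.red n y = D.act n σ (D.red n x)) :
    D.act n σ (D.red n y) - D.red n (D.hecke (HeckeFull.T hℓ hℓN) y) + (ℓ : ℤ) • D.red n x = 0 := by
  have : Fact ℓ.Prime := ⟨hℓ⟩
  obtain ⟨ζ, hζ⟩ := exists_primitiveRoot ℓ
  obtain ⟨u, hu, hux⟩ := D.theta_surj n hn x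
  rw [← hux, D.act_theta hn σ hu] at hy
  have hw := galStable (N := N) n σ _ hu
  have hes := kummerEquiv_heckeMulT_of_isFrobeniusAt A hn hA (hcrux n ℓ hℓ hℓn A hA)
    (galStable n) ζ hζ (D.heckeStable n ℓ ζ hℓ hℓN hζ) hσ hw
  rw [gal_inv_gal] at hes
  have h1 := (D.theta_eq_iff n hn _ _ ((galStable n σ _ hw).mul (hu.pow ℓ))
    ((D.heckeStable n ℓ ζ hℓ hℓN hζ).2 _ hw)).mpr hes
  rw [D.theta_mul n hn _ _ (galStable n σ _ hw) (hu.pow ℓ),
    D.theta_heckeT n hn ℓ hℓ hℓN ζ hζ _ y hw hy.symm] at h1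
  obtain ⟨e, rfl⟩ : ∃ e, ℓ = e + 1 := ⟨ℓ - 1, (Nat.succ_pred_eq_of_pos hℓ.pos).symm⟩
  rw [D.theta_pow hn hu e, hux] at h1
  rw [hy, D.act_theta hn σ hw, ← h1, natCast_zsmul]
  abel

/-- The honest actions on the levels `p ^ k`. -/
noncomputable def toLevelData (hcrux : CruxAll N) (p : ℕ) (hp : p.Prime) : LevelData N p where
  Λ := D.Λ
  hecke := D.hecke
  conj := D.conj
  conj_mul_conj := D.conj_mul_conj
  conj_comm := D.conj_comm
  eigen_dim := D.eigen_dim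
  X := fun k => D.X (p ^ k)
  red := fun k => D.red (p ^ k)
  red_eq_zero_iff := fun k x => D.red_eq_zero_iff (p ^ k) x
  tr := fun k => D.cast (pow_dvd_pow p (Nat.le_succ k))
  tr_red := fun k x => D.cast_red _ x
  act := fun k => D.act (p ^ k)
  act_red := fun k => D.act_red (pow_pos hp.pos k)
  act_add := fun k => D.act_add (pow_pos hp.pos k)
  act_one := fun k => D.act_one (pow_pos hp.pos k)
  act_mul := fun k => D.act_mul (pow_pos hp.pos k)
  act_tr := fun k => D.act_cast _ (pow_pos hp.pos (k + 1))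
  act_hecke := by
    rintro ⟨t, ht'⟩ ht k σ x y hy
    rcases ht with ⟨ℓ, hℓ, hℓN, -, rfl⟩ | ⟨q, hqN, hq, -, rfl⟩
    · exact D.act_heckeT (pow_pos hp.pos k) hℓ hℓN σ x y hy
    · exact D.act_heckeU (pow_pos hp.pos k) hq hqN σ x y hy
  act_level := fun k => D.act_level (pow_pos hp.pos k)
  act_conj := by
    obtain ⟨c, hc⟩ := D.act_conj
    exact ⟨c, fun k x => hc _ (pow_pos hp.pos k) x⟩
  act_unram := fun q hq hqN hqp A hA σ hσ k x =>
    D.act_unram hcrux (pow_pos hp.pos k) hq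
      (fun h => (hq.dvd_mul.mp h).elim
        (fun h1 => hqp ((Nat.prime_dvd_prime_iff_eq hq hp).mp (hq.dvd_of_dvd_pow h1))) hqN)
      A hA σ hσ x
  act_frob := fun ℓ hℓ hℓN hℓp A hA σ hσ k x y hy =>
    D.act_frob hcrux (pow_pos hp.pos k) hℓ hℓN
      (fun h => (hℓ.dvd_mul.mp h).elim
        (fun h1 => hℓp ((Nat.prime_dvd_prime_iff_eq hℓ hp).mp (hℓ.dvd_of_dvd_pow h1))) hℓN)
      A hA σ hσ x y hy

end KummerData

/-- GR-I, main theorem (hypothesis form): the interface of GR-H. -/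
theorem nonempty_tateData [NeZero N] (D : KummerData N) (hcrux : CruxAll N) (p : ℕ)
    (hp : p.Prime) : Nonempty (TateData N p) :=
  ⟨(D.toLevelData hcrux p hp).toTateData⟩

end Fermat.Agent.GR.I
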