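import Fermat.Agent.GR.A.ModDefs
import Fermat.Agent.GR.B.LatMain
import Fermat.Agent.GR.C.MainQbar
import Fermat.Agent.GR.I.Level

/-!
# GR-I (integration), file 4: construction of `KummerData N`

Input: `CharTheory N` = the calculus of the relation `HasChar N n u φ` ("`χ_u = φ`") over `ℂ`
(GR-A and the Kummer side of GR-B).  Together with the lattice package of GR-B (`LatMain`) and the
descent `ℂ → ℚ̄` of GR-C (`MainQbar`) this gives `KummerData N`.
-/

set_option autoImplicit false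

open CongruenceSubgroup ModularCurve ModularCurve.Period
open scoped MatrixGroups

namespace Fermat.Agent.GR.I

open Fermat.Agent.GR Fermat.Agent.GR.H Fermat.Agent.GR.A Fermat.Agent.GR.B

/-- INTERFACE consumed from GR-A (A1-A8) and the Kummer side of GR-B (B1, B3): everything is over
`ℂ`. -/
structure CharTheory (N : ℕ) [NeZero N] : Prop where
  /-- (A1) -/
  exists_char : ∀ (n : ℕ) [NeZero n] (u : LaurentSeries ℂ), IsKummer (N := N) n u →
    ∃ φ : Additive (Gamma0 N) →+ ZMod n, Kills φ ∧ HasChar N n u φ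
  /-- (A2) -/
  isKummer : ∀ (n : ℕ) [NeZero n] (u : LaurentSeries ℂ) (φ : Additive (Gamma0 N) →+ ZMod n),
    HasChar N n u φ → Kills φ → IsKummer (N := N) n u
  /-- (A3) -/
  unique : ∀ (n : ℕ) [NeZero n] (u : LaurentSeries ℂ) (φ φ' : Additive (Gamma0 N) →+ ZMod n),
    HasChar N n u φ → HasChar N n u φ' → φ = φ'
  /-- (A4) -/
  mul : ∀ (n : ℕ) [NeZero n] (u u' : LaurentSeries ℂ) (φ φ' : Additive (Gamma0 N) →+ ZMod n),
    HasChar N n u φ → HasChar N n u' φ' → HasChar N n (u * u') (φ + φ')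
  inv : ∀ (n : ℕ) [NeZero n] (u : LaurentSeries ℂ) (φ : Additive (Gamma0 N) →+ ZMod n),
    HasChar N n u φ → HasChar N n u⁻¹ (-φ)
  congr : ∀ (n : ℕ) [NeZero n] (u u' : LaurentSeries ℂ) (φ : Additive (Gamma0 N) →+ ZMod n),
    HasChar N n u φ → KummerEquiv N n u u' → HasChar N n u' φ
  /-- (A5) -/
  zero : ∀ (n : ℕ) [NeZero n] (u : LaurentSeries ℂ), HasChar N n u 0 → KummerEquiv N n 1 u
  /-- (A6) -/
  surj : ∀ (n : ℕ) [NeZero n] (φ : Additive (Gamma0 N) →+ ZMod n), Kills φ →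
    ∃ u : LaurentSeries ℂ, HasChar N n u φ
  /-- (A7) -/
  of_mul : ∀ (n m : ℕ) [NeZero n] [NeZero m] (u : LaurentSeries ℂ)
    (φ : Additive (Gamma0 N) →+ ZMod (n * m)), HasChar N (n * m) u φ →
    HasChar N n u ((ZMod.castHom (dvd_mul_right n m) (ZMod n)).toAddMonoidHom.comp φ)
  /-- (A8) -/
  conj : ∀ (n : ℕ) [NeZero n] (u : LaurentSeries ℂ) (φ : Additive (Gamma0 N) →+ ZMod n),
    HasChar N n u φ →
      HasChar N n (coeffMap (starRingEnd ℂ) u) (-(charInvolution N ℤ (ZMod n) φ))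
  /-- (B1) -/
  heckeMulT_mem_FF : ∀ (p : ℕ) [Fact p.Prime] (_ : ¬ p ∣ N) (ζ : ℂˣ), IsPrimitiveRoot ζ p →
    ∀ u : LaurentSeries ℂ, u ∈ FF ℂ N → heckeMulT p ζ u ∈ FF ℂ N
  /-- (B3) for `T_p` -/
  hasChar_heckeMulT : ∀ (p : ℕ) [Fact p.Prime] (hpN : ¬ p ∣ N) (ζ : ℂˣ), IsPrimitiveRoot ζ p →
    ∀ (n : ℕ) [NeZero n] (u : LaurentSeries ℂ) (φ : Additive (Gamma0 N) →+ ZMod n),
      HasChar N n u φ → HasChar N n (heckeMulT p ζ u) ((repsT p hpN).op (ZMod n) φ)
  /-- (B3) for `U_p` -/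
  hasChar_normT : ∀ (p : ℕ) [NeZero p] (hpN : p ∣ N) (ζ : ℂˣ), IsPrimitiveRoot ζ p →
    ∀ (n : ℕ) [NeZero n] (u : LaurentSeries ℂ) (φ : Additive (Gamma0 N) →+ ZMod n),
      HasChar N n u φ → HasChar N n (normT p ζ u) ((repsU p hpN).op (ZMod n) φ)

variable {N : ℕ} [NeZero N]

/-! ### generalities -/

omit [NeZero N] in
theorem isKummer_zero_of_forall {K : Type*} [Field K] {u : LaurentSeries K}
    (h : ∀ m, 0 < m → IsKummer (N := N) m u) : IsKummer (N := N) 0 u := by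
  obtain ⟨h0, hu, -⟩ := h 1 one_pos
  refine ⟨h0, hu, fun v => ?_⟩
  have hd : ∀ m : ℕ, 0 < m → (m : ℤ) ∣ v.ord (⟨u, hu⟩ : FF K N) := fun m hm =>
    (h m hm).2.choose_spec v
  have h1 := hd ((v.ord (⟨u, hu⟩ : FF K N)).natAbs + 1) (Nat.succ_pos _)
  have h2 : v.ord (⟨u, hu⟩ : FF K N) = 0 := by
    apply Int.eq_zero_of_abs_lt_dvd h1
    push_cast
    exact Int.lt_succ _
  rw [h2]
  exact dvd_zero _

omit [NeZero N] in
theorem isKummer_of_dvd' {K : Type*} [Field K] {n m : ℕ} (h : n ∣ m) {u : LaurentSeries K}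
    (hu : IsKummer (N := N) m u) : IsKummer (N := N) n u := by
  obtain ⟨h0, hmem, hord⟩ := hu
  exact ⟨h0, hmem, fun v => (Int.natCast_dvd_natCast.mpr h).trans (hord v)⟩

/-- reduction mod `n`. -/
noncomputable def redHom (N n : ℕ) : Lam N →+ (Additive (Gamma0 N) →+ ZMod n) where
  toFun := castHom N (ZMod n)
  map_zero' := by
    refine DFunLike.ext _ _ fun γ => ?_
    simp
  map_add' x y := by
    refine DFunLike.ext _ _ fun γ => ?_
    simp

omit [NeZero N] in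
@[simp] theorem redHom_apply (n : ℕ) (x : Lam N) : redHom N n x = castHom N (ZMod n) x := rfl

/-- change of modulus. -/
noncomputable def castX (N : ℕ) {n m : ℕ} (h : n ∣ m) :
    (Additive (Gamma0 N) →+ ZMod m) →+ (Additive (Gamma0 N) →+ ZMod n) :=
  AddMonoidHom.compHom (ZMod.castHom h (ZMod n)).toAddMonoidHom

omit [NeZero N] in
theorem castX_apply {n m : ℕ} (h : n ∣ m) (φ : Additive (Gamma0 N) →+ ZMod m) :
    castX N h φ = (ZMod.castHom h (ZMod n)).toAddMonoidHom.comp φ := rfl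

omit [NeZero N] in
theorem castX_redHom {n m : ℕ} (h : n ∣ m) (x : Lam N) :
    castX N h (redHom N m x) = redHom N n x := by
  refine DFunLike.ext _ _ fun γ => ?_
  simp [castX_apply]

open Classical in
/-- "the" character of `U` (junk if there is none). -/
noncomputable def chi (N n : ℕ) (U : LaurentSeries ℂ) : Additive (Gamma0 N) →+ ZMod n :=
  if h : ∃ (_ : NeZero n) (φ : Additive (Gamma0 N) →+ ZMod n), HasChar N n U φ then
    h.choose_spec.choose else 0

theorem finite_kills (n : ℕ) [NeZero n] :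
    {φ : Additive (Gamma0 N) →+ ZMod n | Kills φ}.Finite := by
  classical
  let U := univBasis N
  let f : (Additive (Gamma0 N) →+ ZMod n) → (Fin U.r → ZMod n) := fun ψ =>
    if h : Kills ψ then (U.univ (ZMod n) ψ h).choose else 0
  refine Set.Finite.of_injOn (f := f) (t := Set.univ) (fun _ _ => Set.mem_univ _) ?_
    Set.finite_univ
  intro ψ hψ ψ' hψ' hff
  have h1 : f ψ = (U.univ (ZMod n) ψ hψ).choose := dif_pos hψ
  have h2 : f ψ' = (U.univ (ZMod n) ψ' hψ').choose := dif_pos hψ'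
  refine DFunLike.ext _ _ fun γ => ?_
  rw [(U.univ (ZMod n) ψ hψ).choose_spec.1 γ, (U.univ (ZMod n) ψ' hψ').choose_spec.1 γ, ← h1, ← h2,
    hff]

namespace CharTheory

variable (T : CharTheory N)
include T

theorem chi_eq {n : ℕ} [NeZero n] {U : LaurentSeries ℂ} {φ : Additive (Gamma0 N) →+ ZMod n}
    (h : HasChar N n U φ) : chi N n U = φ := by
  have hex : ∃ (_ : NeZero n) (φ : Additive (Gamma0 N) →+ ZMod n), HasChar N n U φ :=
    ⟨inferInstance, φ, h⟩
  have h1 : chi N n U = hex.choose_spec.choose := dif_pos hex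
  rw [h1]
  exact T.unique n U _ _ hex.choose_spec.choose_spec h

theorem hasChar_chi {n : ℕ} [NeZero n] {U : LaurentSeries ℂ} (hU : IsKummer (N := N) n U) :
    HasChar N n U (chi N n U) := by
  obtain ⟨φ, -, hφ⟩ := T.exists_char n U hU
  rw [T.chi_eq hφ]
  exact hφ

theorem kills_chi {n : ℕ} [NeZero n] {U : LaurentSeries ℂ} (hU : IsKummer (N := N) n U) :
    Kills (chi N n U) := by
  obtain ⟨φ, hk, hφ⟩ := T.exists_char n U hU
  rw [T.chi_eq hφ]
  exact hk

theorem kummerEquiv_of_hasChar {n : ℕ} [NeZero n] {U U' : LaurentSeries ℂ}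
    {φ : Additive (Gamma0 N) →+ ZMod n} (hU0 : U ≠ 0) (h : HasChar N n U φ)
    (h' : HasChar N n U' φ) : KummerEquiv N n U U' := by
  have h1 := T.mul n _ _ _ _ (T.inv n U φ h) h'
  rw [neg_add_cancel] at h1
  have h2 := (KummerEquiv.refl (N := N) (n := n) U).mul (T.zero n _ h1)
  rwa [mul_one, mul_inv_cancel_left₀ hU0] at h2

variable (ι : Qbar →+* ℂ)
include ι

omit T in
theorem isPrimitiveRoot_map_iota {ℓ : ℕ} {ζ : Qbarˣ} (hζ : IsPrimitiveRoot ζ ℓ) :
    IsPrimitiveRoot (Units.map (ι : Qbar →* ℂ) ζ) ℓ :=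
  hζ.map_of_injective (Units.map_injective ι.injective)

theorem theta_eq {n : ℕ} [NeZero n] {u : LaurentSeries Qbar} {φ : Additive (Gamma0 N) →+ ZMod n}
    (h : HasChar N n (coeffMap ι u) φ) : chi N n (coeffMap ι u) = φ := T.chi_eq h

theorem theta_mul {n : ℕ} (hn : 0 < n) (u v : LaurentSeries Qbar) (hu : IsKummer (N := N) n u)
    (hv : IsKummer (N := N) n v) :
    chi N n (coeffMap ι (u * v)) = chi N n (coeffMap ι u) + chi N n (coeffMap ι v) := by
  have : NeZero n := ⟨hn.ne'⟩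
  rw [map_mul]
  exact T.chi_eq (T.mul n _ _ _ _ (T.hasChar_chi (C.isKummer_coeffMap_hom ι hu))
    (T.hasChar_chi (C.isKummer_coeffMap_hom ι hv)))

theorem theta_eq_iff {n : ℕ} (hn : 0 < n) (u v : LaurentSeries Qbar) (hu : IsKummer (N := N) n u)
    (hv : IsKummer (N := N) n v) :
    chi N n (coeffMap ι u) = chi N n (coeffMap ι v) ↔ KummerEquiv N n u v := by
  have : NeZero n := ⟨hn.ne'⟩
  have hu' := C.isKummer_coeffMap_hom ι hu
  have hv' := C.isKummer_coeffMap_hom ι hv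
  constructor
  · intro h
    rw [← C.kummerEquiv_iota_iff ι hn]
    have h1 := T.hasChar_chi hu'
    rw [h] at h1
    exact T.kummerEquiv_of_hasChar hu'.ne_zero h1 (T.hasChar_chi hv')
  · intro h
    exact (T.chi_eq (T.congr n _ _ _ (T.hasChar_chi hu') (C.kummerEquiv_coeffMap h ι))).symm

theorem theta_mem {n : ℕ} (hn : 0 < n) (u : LaurentSeries Qbar) (hu : IsKummer (N := N) n u) :
    ∃ x, redHom N n x = chi N n (coeffMap ι u) := by
  have : NeZero n := ⟨hn.ne'⟩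
  exact exists_castHom_zmod_eq N n _ (T.kills_chi (C.isKummer_coeffMap_hom ι hu))

theorem theta_surj {n : ℕ} (hn : 0 < n) (x : Lam N) :
    ∃ u, IsKummer (N := N) n u ∧ chi N n (coeffMap ι u) = redHom N n x := by
  have : NeZero n := ⟨hn.ne'⟩
  have hk : Kills (castHom N (ZMod n) x) := kills_castHom (ZMod n) x
  obtain ⟨U, hU⟩ := T.surj n _ hk
  have hUK := T.isKummer n U _ hU hk
  obtain ⟨u, hu, hUu⟩ := C.exists_descent_iota ι hn (HasChar N n)
    {φ : Additive (Gamma0 N) →+ ZMod n | Kills φ} (finite_kills n)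
    (fun V hV => T.exists_char n V hV)
    (fun V V' φ hV _ h h' => T.kummerEquiv_of_hasChar hV.ne_zero h h') hUK
  exact ⟨u, hu, T.chi_eq (T.congr n _ _ _ hU hUu)⟩

theorem theta_cast {n m : ℕ} (h : n ∣ m) (hm : 0 < m) (u : LaurentSeries Qbar)
    (hu : IsKummer (N := N) m u) :
    castX N h (chi N m (coeffMap ι u)) = chi N n (coeffMap ι u) := by
  obtain ⟨k, rfl⟩ := h
  have : NeZero n := ⟨fun h0 => by simp [h0] at hm⟩
  have : NeZero k := ⟨fun h0 => by simp [h0] at hm⟩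
  exact (T.chi_eq (T.of_mul n k _ _ (T.hasChar_chi (C.isKummer_coeffMap_hom ι hu)))).symm

theorem isKummer_heckeMulT {n ℓ : ℕ} [NeZero ℓ] (ζ : Qbarˣ) (hℓ : ℓ.Prime) (hℓN : ¬ ℓ ∣ N)
    (hζ : IsPrimitiveRoot ζ ℓ) (hn : 0 < n) (u : LaurentSeries Qbar)
    (hu : IsKummer (N := N) n u) : IsKummer (N := N) n (heckeMulT ℓ ζ u) := by
  have : NeZero n := ⟨hn.ne'⟩
  have : Fact ℓ.Prime := ⟨hℓ⟩
  rw [← C.isKummer_iota_iff ι, coeffMap_heckeMulT]
  have hu' := C.isKummer_coeffMap_hom ι hu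
  exact T.isKummer n _ _
    (T.hasChar_heckeMulT ℓ hℓN _ (isPrimitiveRoot_map_iota ι hζ) n _ _ (T.hasChar_chi hu'))
    ((repsT ℓ hℓN).op_Kills (T.kills_chi hu'))

theorem heckeStable (n ℓ : ℕ) [NeZero ℓ] (ζ : Qbarˣ) (hℓ : ℓ.Prime) (hℓN : ¬ ℓ ∣ N)
    (hζ : IsPrimitiveRoot ζ ℓ) : HeckeStable N n ℓ ζ := by
  refine ⟨fun u hu => ?_, fun u hu => ?_⟩
  · have : Fact ℓ.Prime := ⟨hℓ⟩
    rw [← C.mem_FF_coeffMap_hom_iff ι, coeffMap_heckeMulT]
    exact T.heckeMulT_mem_FF ℓ hℓN _ (isPrimitiveRoot_map_iota ι hζ) _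
      ((C.mem_FF_coeffMap_hom_iff ι).mpr hu)
  · rcases Nat.eq_zero_or_pos n with rfl | hn
    · exact isKummer_zero_of_forall fun m hm =>
        T.isKummer_heckeMulT ι ζ hℓ hℓN hζ hm u (isKummer_of_dvd' (dvd_zero m) hu)
    · exact T.isKummer_heckeMulT ι ζ hℓ hℓN hζ hn u hu

theorem theta_heckeT {n : ℕ} (hn : 0 < n) (ℓ : ℕ) [NeZero ℓ] (hℓ : ℓ.Prime) (hℓN : ¬ ℓ ∣ N)
    (ζ : Qbarˣ) (hζ : IsPrimitiveRoot ζ ℓ) (u : LaurentSeries Qbar) (x : Lam N)
    (hu : IsKummer (N := N) n u) (hx : chi N n (coeffMap ι u) = redHom N n x) :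
    chi N n (coeffMap ι (heckeMulT ℓ ζ u)) =
      redHom N n (heckeLam N (HeckeFull.T hℓ hℓN) x) := by
  have : NeZero n := ⟨hn.ne'⟩
  have : Fact ℓ.Prime := ⟨hℓ⟩
  have hu' := C.isKummer_coeffMap_hom ι hu
  rw [coeffMap_heckeMulT, redHom_apply, castHom_heckeLam_T N n hℓN x, ← redHom_apply, ← hx]
  exact T.chi_eq
    (T.hasChar_heckeMulT ℓ hℓN _ (isPrimitiveRoot_map_iota ι hζ) n _ _ (T.hasChar_chi hu'))

theorem isKummer_normT {n q : ℕ} [NeZero q] (ζ : Qbarˣ) (hqN : q ∣ N)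
    (hζ : IsPrimitiveRoot ζ q) (hn : 0 < n) (u : LaurentSeries Qbar)
    (hu : IsKummer (N := N) n u) : IsKummer (N := N) n (normT q ζ u) := by
  have : NeZero n := ⟨hn.ne'⟩
  rw [← C.isKummer_iota_iff ι, coeffMap_normT]
  have hu' := C.isKummer_coeffMap_hom ι hu
  exact T.isKummer n _ _
    (T.hasChar_normT q hqN _ (isPrimitiveRoot_map_iota ι hζ) n _ _ (T.hasChar_chi hu'))
    ((repsU q hqN).op_Kills (T.kills_chi hu'))

theorem normStable (n q : ℕ) [NeZero q] (ζ : Qbarˣ) (hqN : q ∣ N)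
    (hζ : IsPrimitiveRoot ζ q) (u : LaurentSeries Qbar) (hu : IsKummer (N := N) n u) :
    IsKummer (N := N) n (normT q ζ u) := by
  rcases Nat.eq_zero_or_pos n with rfl | hn
  · exact isKummer_zero_of_forall fun m hm =>
      T.isKummer_normT ι ζ hqN hζ hm u (isKummer_of_dvd' (dvd_zero m) hu)
  · exact T.isKummer_normT ι ζ hqN hζ hn u hu

omit T ι in
theorem castHom_heckeLam_U (n : ℕ) {q : ℕ} [NeZero q] (hq : q.Prime) (hqN : q ∣ N) (x : Lam N) :
    castHom N (ZMod n) (heckeLam N (CuspForm.heckeAlgebra.U hq hqN (Set.notMem_empty q)) x) =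
      (repsU q hqN).op (ZMod n) (castHom N (ZMod n) x) := by
  have h1 : CuspForm.heckeAlgebra.U hq hqN (Set.notMem_empty q) = genP N q hq :=
    Subtype.ext (heckeP_of_dvd N hq hqN).symm
  rw [h1, castHom_heckeLam_genP, repsP_of_dvd N hq hqN]

theorem theta_heckeU {n : ℕ} (hn : 0 < n) (q : ℕ) [NeZero q] (hq : q.Prime) (hqN : q ∣ N)
    (ζ : Qbarˣ) (hζ : IsPrimitiveRoot ζ q) (u : LaurentSeries Qbar) (x : Lam N)
    (hu : IsKummer (N := N) n u) (hx : chi N n (coeffMap ι u) = redHom N n x) :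
    chi N n (coeffMap ι (normT q ζ u)) =
      redHom N n (heckeLam N (CuspForm.heckeAlgebra.U hq hqN (Set.notMem_empty q)) x) := by
  have : NeZero n := ⟨hn.ne'⟩
  have hu' := C.isKummer_coeffMap_hom ι hu
  rw [coeffMap_normT, redHom_apply, castHom_heckeLam_U n hq hqN x, ← redHom_apply, ← hx]
  exact T.chi_eq
    (T.hasChar_normT q hqN _ (isPrimitiveRoot_map_iota ι hζ) n _ _ (T.hasChar_chi hu'))

theorem theta_conj : ∃ c : GQ, ∀ n, 0 < n → ∀ (u : LaurentSeries Qbar) (x : Lam N),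
    IsKummer (N := N) n u → chi N n (coeffMap ι u) = redHom N n x →
      chi N n (coeffMap ι (gal c u)) = redHom N n (conjLam N x) := by
  obtain ⟨c, hc⟩ := C.exists_conj ι
  refine ⟨c, fun n hn u x hu hx => ?_⟩
  have : NeZero n := ⟨hn.ne'⟩
  have hu' := C.isKummer_coeffMap_hom ι hu
  have h1 : coeffMap ι (gal c u) = coeffMap (starRingEnd ℂ) (coeffMap ι u) :=
    C.coeffMap_conj ι c hc u
  rw [h1, redHom_apply, castHom_conjLam, ← redHom_apply, ← hx]
  exact T.chi_eq (T.conj n _ _ (T.hasChar_chi hu'))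

/-- GR-A + GR-B + GR-C ⟹ the interface of the integration. -/
noncomputable def toKummerData : KummerData N where
  Λ := Lam N
  hecke := heckeLam N
  conj := conjLam N
  conj_mul_conj := conjLam_mul_conjLam N
  conj_comm := conjLam_comm N
  eigen_dim := eigen_dim_lam N
  X := fun n => Additive (Gamma0 N) →+ ZMod n
  red := redHom N
  red_eq_zero_iff := fun n x => castHom_zmod_eq_zero_iff N n x
  cast := fun h => castX N h
  cast_red := fun h x => castX_redHom h x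
  theta := fun n u => chi N n (coeffMap ι u)
  theta_mul := fun _ hn => T.theta_mul ι hn
  theta_eq_iff := fun _ hn => T.theta_eq_iff ι hn
  theta_mem := fun _ hn => T.theta_mem ι hn
  theta_surj := fun _ hn => T.theta_surj ι hn
  theta_cast := fun h hm => T.theta_cast ι h hm
  heckeStable := fun n ℓ _ ζ => T.heckeStable ι n ℓ ζ
  theta_heckeT := fun _ hn ℓ _ => T.theta_heckeT ι hn ℓ
  normStable := fun n q _ ζ _ => T.normStable ι n q ζ
  theta_heckeU := fun _ hn q _ => T.theta_heckeU ι hn q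
  theta_conj := T.theta_conj ι

end CharTheory

/-- GR-I, main theorem (hypothesis form 2): the interface of GR-H, with a faithful Hecke action
(for S31). -/
theorem exists_tateData_of_charTheory (T : CharTheory N) (hcrux : CruxAll N) (p : ℕ)
    (hp : p.Prime) : ∃ D : TateData N p, Function.Injective D.hecke := by
  let ι : Qbar →+* ℂ := (IsAlgClosed.lift (R := ℚ) (S := Qbar) (M := ℂ)).toRingHom
  exact ⟨((T.toKummerData ι).toLevelData hcrux p hp).toTateData, heckeLam_injective N⟩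

end Fermat.Agent.GR.I
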