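import Fermat.Agent.GR.E.BR9
import Fermat.Agent.GR.I.Build

/-!
# GR-I (integration), file 5: the crux lemma from GR-D + GR-E, and the final hypothesis form
-/

set_option autoImplicit false

namespace Fermat.Agent.GR.I

open Fermat.Agent.GR Fermat.Agent.GR.H

theorem cruxAll_of_modelExists (hD : E.ModelExists) (N : ℕ) [NeZero N] : CruxAll N :=
  fun _ _ hℓ hℓn _ hA a b ha hb hpa hib hab hK =>
    E.crux_of_modelExists hD hℓ hℓn hA a b ha hb hpa hib hab hK

/-- Everything except GR-D (`ModelExists`) and GR-A / Kummer side of GR-B (`CharTheory`). -/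
theorem exists_tateData_of (hD : E.ModelExists) {N : ℕ} [NeZero N] (T : CharTheory N) (p : ℕ)
    (hp : p.Prime) : ∃ D : TateData N p, Function.Injective D.hecke :=
  exists_tateData_of_charTheory T (cruxAll_of_modelExists hD N) p hp

end Fermat.Agent.GR.I
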