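import Fermat.Agent.GR.I.Build
import Fermat.Agent.GR.A.Export
import Fermat.Agent.GR.A.CharInjSurj
import Fermat.Agent.GR.B.CharSoft
import Fermat.Agent.GR.B.CharConj
import Fermat.Agent.GR.B.KummerMain

/-!
# GR-I : the term `charTheory N : CharTheory N`
-/

set_option autoImplicit false
set_option linter.unusedVariables false

open CongruenceSubgroup ModularCurve ModularCurve.Period
open scoped MatrixGroups

namespace Fermat.Agent.GR.I

open Fermat.Agent.GR Fermat.Agent.GR.H Fermat.Agent.GR.A Fermat.Agent.GR.B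

theorem charTheory (N : ℕ) [NeZero N] : CharTheory N where
  exists_char := fun n _ u hu => A.exists_char hu
  isKummer := fun n _ u φ h hφ => A.isKummer_of_hasChar h hφ
  unique := fun n _ u φ φ' h h' => B.HasChar.unique h h'
  mul := fun n _ u u' φ φ' h h' => B.HasChar.mul h h'
  inv := fun n _ u φ h => B.HasChar.inv h
  congr := fun n _ u u' φ h h' => B.HasChar.congr h h'
  zero := fun n _ u h => A.kummerEquiv_one_of_hasChar_zero h
  surj := fun n _ φ hφ => A.exists_hasChar φ hφ
  of_mul := fun n m _ _ u φ h => B.HasChar.of_mul h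
  conj := fun n _ u φ h => B.hasChar_conj h
  heckeMulT_mem_FF := fun p _ hpN ζ hζ u hu => B.heckeMulT_mem_FF p hpN ζ hζ hu
  hasChar_heckeMulT := fun p _ hpN ζ hζ n _ u φ h => B.hasChar_heckeMulT p hpN ζ hζ h
  hasChar_normT := fun p _ hpN ζ hζ n _ u φ h => B.hasChar_normT p hpN ζ hζ h

end Fermat.Agent.GR.I
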