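import Fermat.Agent.GR.F.Main
import Fermat.Agent.GR.H.Iface

/-!
# GR-I (integration), file 2: the interface consumed from GR-A, GR-B, GR-C

`KummerData N`: the Betti lattice `Λ` (GR-B) together with the identification
`theta n : {Kummer functions over ℚ̄} / n-th powers ≃ Λ / n Λ` (GR-C: `M_n(ℚ̄) = M_n(ℂ)`, GR-A:
`M_n(ℂ) = Hom(Γ₀(N)/⟨ell, par⟩, μ_n)`), for all `n`, with its compatibilities.
`X n` is any group containing `Λ / n Λ` (e.g. `Additive (Gamma0 N) →+ ZMod n`).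
-/

set_option autoImplicit false

namespace Fermat.Agent.GR.I

open Fermat.Agent.GR Fermat.Agent.GR.H

/-- INTERFACE consumed by the integration (delivered by GR-A, GR-B, GR-C together). -/
structure KummerData (N : ℕ) [NeZero N] : Type 1 where
  /- the lattice (GR-B) -/
  Λ : Type
  [instAddCommGroup : AddCommGroup Λ]
  [instFree : Module.Free ℤ Λ]
  [instFinite : Module.Finite ℤ Λ]
  hecke : HeckeFull N →+* Module.End ℤ Λ
  conj : Module.End ℤ Λ
  conj_mul_conj : conj * conj = 1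
  conj_comm : ∀ t, conj * hecke t = hecke t * conj
  eigen_dim : ∀ (μ : HeckeFull N →+* ℂ) (s : ℤˣ),
    Module.finrank ℂ (eigenSubSign hecke conj ℂ μ s) = 1
  /- reduction mod `n` -/
  X : ℕ → Type
  [instX : ∀ n, AddCommGroup (X n)]
  red : ∀ n, Λ →+ X n
  red_eq_zero_iff : ∀ n x, red n x = 0 ↔ ∃ y, x = (n : ℤ) • y
  cast : ∀ {n m : ℕ}, n ∣ m → X m →+ X n
  cast_red : ∀ {n m : ℕ} (h : n ∣ m) (x : Λ), cast h (red m x) = red n x
  /- the class of a Kummer function (junk outside `IsKummer n`) -/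
  theta : ∀ n, LaurentSeries Qbar → X n
  theta_mul : ∀ n, 0 < n → ∀ u v, IsKummer (N := N) n u → IsKummer (N := N) n v →
    theta n (u * v) = theta n u + theta n v
  theta_eq_iff : ∀ n, 0 < n → ∀ u v, IsKummer (N := N) n u → IsKummer (N := N) n v →
    (theta n u = theta n v ↔ KummerEquiv N n u v)
  theta_mem : ∀ n, 0 < n → ∀ u, IsKummer (N := N) n u → ∃ x, red n x = theta n u
  theta_surj : ∀ n, 0 < n → ∀ x, ∃ u, IsKummer (N := N) n u ∧ theta n u = red n x
  theta_cast : ∀ {n m : ℕ} (h : n ∣ m), 0 < m → ∀ u, IsKummer (N := N) m u →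
    cast h (theta m u) = theta n u
  /- Hecke operators -/
  heckeStable : ∀ (n ℓ : ℕ) [NeZero ℓ] (ζ : Qbarˣ), ℓ.Prime → ¬ ℓ ∣ N → IsPrimitiveRoot ζ ℓ →
    HeckeStable N n ℓ ζ
  theta_heckeT : ∀ (n : ℕ), 0 < n → ∀ (ℓ : ℕ) [NeZero ℓ] (hℓ : ℓ.Prime) (hℓN : ¬ ℓ ∣ N)
    (ζ : Qbarˣ), IsPrimitiveRoot ζ ℓ → ∀ u x, IsKummer (N := N) n u → theta n u = red n x →
      theta n (heckeMulT ℓ ζ u) = red n (hecke (HeckeFull.T hℓ hℓN) x)
  normStable : ∀ (n q : ℕ) [NeZero q] (ζ : Qbarˣ), q.Prime → q ∣ N → IsPrimitiveRoot ζ q →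
    ∀ u, IsKummer (N := N) n u → IsKummer (N := N) n (normT q ζ u)
  theta_heckeU : ∀ (n : ℕ), 0 < n → ∀ (q : ℕ) [NeZero q] (hq : q.Prime) (hqN : q ∣ N)
    (ζ : Qbarˣ), IsPrimitiveRoot ζ q → ∀ u x, IsKummer (N := N) n u → theta n u = red n x →
      theta n (normT q ζ u) =
        red n (hecke (CuspForm.heckeAlgebra.U hq hqN (Set.notMem_empty q)) x)
  /- complex conjugation -/
  theta_conj : ∃ c : GQ, ∀ n, 0 < n → ∀ u x, IsKummer (N := N) n u → theta n u = red n x →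
    theta n (gal c u) = red n (conj x)

attribute [instance] KummerData.instAddCommGroup KummerData.instFree KummerData.instFinite
  KummerData.instX

/-- INTERFACE consumed from GR-D + GR-E: the crux lemma at all places of good reduction. -/
def CruxAll (N : ℕ) : Prop :=
  ∀ (n ℓ : ℕ), ℓ.Prime → ¬ ℓ ∣ n * N → ∀ A : ValuationSubring Qbar, A.LiesOverPrime ℓ →
    CruxAt N n A

end Fermat.Agent.GR.I
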